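/-
S41, block H2 (owner helper41): abstract part.

* `exists_eigenvector_ker_le'` : Deligne-Serre lifting (`S49.exists_eigenvector_ker_le`) for a not
  necessarily faithful action, `ker φ ≤ 𝔪`.
* `restrictHom` : restriction of a commutative ring of endomorphisms to the kernel of one of them.
-/
import Mathlib
import Fermat.Agent.S49.EigenLift

set_option autoImplicit false

namespace Fermat.Agent.S41.H2

/-- Deligne-Serre lifting for an action which need not be faithful. -/
theorem exists_eigenvector_ker_le' {V : Type*} [AddCommGroup V] [Module ℂ V]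
    [FiniteDimensional ℂ V] {A : Type*} [CommRing A] [Module.Finite ℤ A]
    (φ : A →+* Module.End ℂ V) (𝔪 : Ideal A) [h𝔪 : 𝔪.IsPrime] (hφ : RingHom.ker φ ≤ 𝔪) :
    ∃ (v : V) (χ : A →+* ℂ), v ≠ 0 ∧ (∀ t, φ t v = χ t • v) ∧ RingHom.ker χ ≤ 𝔪 := by
  classical
  have hsurj : Function.Surjective (Ideal.Quotient.mk (RingHom.ker φ)) :=
    Ideal.Quotient.mk_surjective
  have hker : RingHom.ker (Ideal.Quotient.mk (RingHom.ker φ)) ≤ 𝔪 := by
    rw [Ideal.mk_ker]; exact hφ
  have : (𝔪.map (Ideal.Quotient.mk (RingHom.ker φ))).IsPrime :=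
    Ideal.map_isPrime_of_surjective hsurj hker
  have : Module.Finite ℤ (A ⧸ RingHom.ker φ) :=
    Module.Finite.of_surjective (Ideal.Quotient.mkₐ ℤ (RingHom.ker φ)).toLinearMap hsurj
  obtain ⟨v, χ, hv, hχ, hle⟩ := Fermat.Agent.S49.exists_eigenvector_ker_le
    (RingHom.kerLift φ) (RingHom.kerLift_injective φ)
    (𝔪.map (Ideal.Quotient.mk (RingHom.ker φ)))
  refine ⟨v, χ.comp (Ideal.Quotient.mk (RingHom.ker φ)), hv, fun t => ?_, fun t ht => ?_⟩
  · have := hχ (Ideal.Quotient.mk (RingHom.ker φ) t)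
    rwa [RingHom.kerLift_mk] at this
  · have h1 : Ideal.Quotient.mk (RingHom.ker φ) t ∈
        𝔪.map (Ideal.Quotient.mk (RingHom.ker φ)) := hle ht
    have h2 : t ∈ (𝔪.map (Ideal.Quotient.mk (RingHom.ker φ))).comap
        (Ideal.Quotient.mk (RingHom.ker φ)) := h1
    rw [Ideal.comap_map_of_surjective _ hsurj, ← RingHom.ker_eq_comap_bot, Ideal.mk_ker,
      sup_eq_left.2 hφ] at h2
    exact h2

/-- Restriction of a commutative ring of endomorphisms of `V` to the kernel of one of them. -/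
noncomputable def restrictHom {V : Type*} [AddCommGroup V] [Module ℂ V] {A : Type*} [CommRing A]
    (φ : A →+* Module.End ℂ V) (u : A) : A →+* Module.End ℂ (LinearMap.ker (φ u)) where
  toFun t := (φ t).restrict (p := LinearMap.ker (φ u)) (q := LinearMap.ker (φ u)) (by
    intro x hx
    rw [LinearMap.mem_ker] at hx ⊢
    rw [← Module.End.mul_apply, ← map_mul, mul_comm, map_mul, Module.End.mul_apply, hx, map_zero])
  map_one' := by
    ext x
    simp
  map_mul' s t := by
    ext x
    simp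
  map_zero' := by
    ext x
    simp
  map_add' s t := by
    ext x
    simp

theorem coe_restrictHom {V : Type*} [AddCommGroup V] [Module ℂ V] {A : Type*} [CommRing A]
    (φ : A →+* Module.End ℂ V) (u t : A) (x : LinearMap.ker (φ u)) :
    ((restrictHom φ u t x : LinearMap.ker (φ u)) : V) = φ t x := rfl

/-- Deligne-Serre lifting inside the kernel of `φ u`. -/
theorem exists_eigenvector_in_ker {V : Type*} [AddCommGroup V] [Module ℂ V]
    [FiniteDimensional ℂ V] {A : Type*} [CommRing A] [Module.Finite ℤ A]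
    (φ : A →+* Module.End ℂ V) (u : A) (𝔪 : Ideal A) [𝔪.IsPrime]
    (h : ∀ t : A, (∀ x : V, φ u x = 0 → φ t x = 0) → t ∈ 𝔪) :
    ∃ (v : V) (χ : A →+* ℂ), v ≠ 0 ∧ (∀ t, φ t v = χ t • v) ∧ RingHom.ker χ ≤ 𝔪 ∧ χ u = 0 := by
  obtain ⟨v, χ, hv, hχ, hle⟩ := exists_eigenvector_ker_le' (restrictHom φ u) 𝔪 (by
    intro t ht
    refine h t fun x hx => ?_
    have h1 : restrictHom φ u t ⟨x, hx⟩ = 0 := by
      rw [RingHom.mem_ker] at ht
      rw [ht]; rfl
    have h2 := congrArg Subtype.val h1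
    exact h2)
  have hv' : (v : V) ≠ 0 := fun h0 => hv (Subtype.ext h0)
  have hχ' : ∀ t, φ t v = χ t • (v : V) := fun t => by
    have := congrArg Subtype.val (hχ t)
    exact this
  refine ⟨v, χ, hv', hχ', hle, ?_⟩
  have h1 : φ u v = 0 := v.2
  rw [hχ'] at h1
  exact (smul_eq_zero.1 h1).resolve_right hv'

end Fermat.Agent.S41.H2
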