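/-
S41, block H2 (owner helper41).

From a vector `x` of the lattice `Λ(M) = Hom_par(Γ₀(M), ℤ)`, `x ∉ p Λ`, with `U_q² x = x` and
`T_ℓ x ≡ a_ℓ x mod p Λ`, to a normalised eigenform `g` of level `M` with `a_q(g)² = 1` and
`a_ℓ(g) ≡ a_ℓ` modulo a maximal ideal over `p`.
-/
import Fermat.Agent.Lib.HeckeHom.Faithful
import Fermat.Agent.S49.LyingOver
import Fermat.Agent.S41.H2.Abs
import Fermat.Agent.S41.H2.Eigenform

set_option autoImplicit false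

open ModularFormClass CongruenceSubgroup CuspForm

namespace Fermat.Agent.S41.H2

open Fermat.Agent.Lib.HeckeHom

variable {M : ℕ} [NeZero M]

/-- The ideal of the Hecke operators sending `x` into `p Λ`. -/
noncomputable def congIdeal (p : ℕ) (x : Lam M) : Ideal (heckeAlgebra M 2 ∅) where
  carrier := {t | ∃ y : Lam M, latHom M ∅ t x = p • y}
  add_mem' := by
    rintro s t ⟨y, hy⟩ ⟨z, hz⟩
    exact ⟨y + z, by rw [map_add, LinearMap.add_apply, hy, hz, smul_add]⟩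
  zero_mem' := ⟨0, by simp⟩
  smul_mem' := by
    rintro s t ⟨y, hy⟩
    exact ⟨latHom M ∅ s y, by
      rw [smul_eq_mul, map_mul, Module.End.mul_apply, hy, map_nsmul]⟩

theorem mem_congIdeal {p : ℕ} {x : Lam M} {t : heckeAlgebra M 2 ∅} :
    t ∈ congIdeal p x ↔ ∃ y : Lam M, latHom M ∅ t x = p • y := Iff.rfl

/-- An operator killing the kernel of `u` on cusp forms kills the kernel of `u` on the lattice. -/
theorem latHom_eq_zero_of_forall (u t : heckeAlgebra M 2 ∅) (x : Lam M)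
    (hu : latHom M ∅ u x = 0)
    (ht : ∀ f : CuspForm (Gamma0 M) 2, (u : Module.End ℂ (CuspForm (Gamma0 M) 2)) f = 0 →
      (t : Module.End ℂ (CuspForm (Gamma0 M) 2)) f = 0) :
    latHom M ∅ t x = 0 := by
  apply lamEmb_injective M
  rw [lamEmb_latHom, map_zero]
  obtain ⟨⟨f, g⟩, hfg⟩ := (esEquiv M).surjective (lamEmb M x)
  have h1 : hatHom M u.1 (lamEmb M x) = 0 := by
    rw [← lamEmb_latHom, hu, map_zero]
  rw [← hfg, hatHom_esEquiv] at h1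
  have h2 := (esEquiv M).map_eq_zero_iff.1 h1
  have hf : (u : Module.End ℂ (CuspForm (Gamma0 M) 2)) f = 0 := congrArg Prod.fst h2
  have hg : (u : Module.End ℂ (CuspForm (Gamma0 M) 2)) g = 0 := congrArg Prod.snd h2
  rw [← hfg, hatHom_esEquiv, ht f hf, ht g hg]
  exact map_zero _

/-- **Block H2.** -/
theorem exists_eigenform_of_lattice_vector {q p : ℕ} (hp : p.Prime) (hq : q.Prime) (hqM : q ∣ M)
    (a : ℕ → ℤ) (P : ℕ → Prop) (x : Lam M) (hx : ¬ ∃ y : Lam M, x = p • y)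
    (hU : heckeHomU hqM (heckeHomU hqM x.1) = x.1)
    (hT : ∀ (ℓ : ℕ) (hℓ : ℓ.Prime) (hℓM : ¬ ℓ ∣ M), P ℓ →
      ∃ y : Lam M, heckeHomT hℓ hℓM x.1 - a ℓ • x.1 = p • y.1) :
    ∃ (g : CuspForm (Gamma0 M) 2) (𝔪' : Ideal (integralClosure ℤ ℂ)),
      g.IsNormalizedEigenform ∧ 𝔪'.IsMaximal ∧ (p : integralClosure ℤ ℂ) ∈ 𝔪' ∧
      (∀ ℓ : ℕ, ℓ.Prime → ¬ ℓ ∣ M → P ℓ →
        ∃ c : integralClosure ℤ ℂ, (c : ℂ) = qCoeff g ℓ ∧
          c - ((a ℓ : ℤ) : integralClosure ℤ ℂ) ∈ 𝔪') ∧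
      qCoeff g q ^ 2 = 1 := by
  classical
  have : FiniteDimensional ℂ (CuspForm (Gamma0 M) 2) := Fermat.Agent.S49.finiteDimensional_cuspForm
  have : Module.Finite ℤ (heckeAlgebra M 2 ∅) := finite_heckeAlgebra M ∅
  set Uq : heckeAlgebra M 2 ∅ := heckeAlgebra.U hq hqM (Set.notMem_empty q) with hUq
  set u : heckeAlgebra M 2 ∅ := Uq * Uq - 1 with hu
  -- `u` kills `x`
  have hux : latHom M ∅ u x = 0 := by
    apply Subtype.ext
    rw [hu, map_sub, map_mul, map_one, LinearMap.sub_apply, Module.End.mul_apply,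
      Module.End.one_apply]
    rw [Submodule.coe_sub, coe_latHom_U, coe_latHom_U, hU, sub_self]
    rfl
  -- the congruence ideal is proper
  have hne : congIdeal p x ≠ ⊤ := by
    intro htop
    have h1 : (1 : heckeAlgebra M 2 ∅) ∈ congIdeal p x := htop ▸ Submodule.mem_top
    obtain ⟨y, hy⟩ := h1
    exact hx ⟨y, by simpa using hy⟩
  obtain ⟨𝔫, h𝔫max, h𝔫le⟩ := Ideal.exists_le_maximal _ hne
  have : 𝔫.IsPrime := h𝔫max.isPrime
  have hp𝔫 : (p : heckeAlgebra M 2 ∅) ∈ 𝔫 := h𝔫le ⟨x, by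
    rw [map_natCast]
    simp⟩
  have hT𝔫 : ∀ (ℓ : ℕ) (hℓ : ℓ.Prime) (hℓM : ¬ ℓ ∣ M), P ℓ →
      heckeAlgebra.T hℓ hℓM (Set.notMem_empty ℓ) - ((a ℓ : ℤ) : heckeAlgebra M 2 ∅) ∈ 𝔫 := by
    intro ℓ hℓ hℓM hP
    obtain ⟨y, hy⟩ := hT ℓ hℓ hℓM hP
    refine h𝔫le ⟨y, Subtype.ext ?_⟩
    rw [map_sub, map_intCast, LinearMap.sub_apply, Submodule.coe_sub, coe_latHom_T]
    rw [Submodule.coe_smul_of_tower, ← hy]
    congr 1
  -- Deligne-Serre lifting inside `ker u`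
  obtain ⟨v, χ, hv, hχ, hker, hχu⟩ := exists_eigenvector_in_ker
    (heckeAlgebra M 2 ∅).val.toRingHom u 𝔫 (fun t ht =>
      h𝔫le ⟨0, by rw [latHom_eq_zero_of_forall u t x hux ht, smul_zero]⟩)
  obtain ⟨g, hg, hgT, hgU⟩ := exists_normalizedEigenform_of_eigenvector' v hv χ hχ
  obtain ⟨𝔪', hmax, hp', hm'⟩ := Fermat.Agent.S49.exists_maximal_over χ 𝔫 hker p hp hp𝔫
  refine ⟨g, 𝔪', hg, hmax, hp', fun ℓ hℓ hℓM hP => ?_, ?_⟩
  · have hint : IsIntegral ℤ (χ (heckeAlgebra.T hℓ hℓM (Set.notMem_empty ℓ))) :=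
      (Algebra.IsIntegral.isIntegral (R := ℤ)
        (heckeAlgebra.T hℓ hℓM (Set.notMem_empty ℓ) : heckeAlgebra M 2 ∅)).map χ.toIntAlgHom
    refine ⟨⟨_, hint⟩, (hgT ℓ hℓ hℓM).symm, ?_⟩
    refine hm' _ (hT𝔫 ℓ hℓ hℓM hP) _ ?_
    simp
  · rw [hgU q hq hqM, ← hUq]
    rw [hu, map_sub, map_mul, map_one, sub_eq_zero] at hχu
    rw [pow_two, hχu]

end Fermat.Agent.S41.H2
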